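import Fermat.Agent.S36.Nodal.Conc
import Fermat.Agent.S36.Kron.Input
import Fermat.Agent.S36.Geo.Coord.Exists

/-!
# S36/E/Top/Coord : from the output of KRON to the coordinate data `Nodal.Coord (RS S)`

* `KronData S` : the output of the block KRON, with all the choices made (`SS`, and for `e ∈ SS` the functions `x e`, `x' e`, `u0 e`, `rc e` with `KOut` and `r̄c₀(e) ≠ 0`), the reduction map `r`, and `ϖ`;
* `KronData.coordHyp`, `KronData.coord : Nodal.Coord (RS S)` with `SS = D.SS`, `xe = D.x`, `ρ = ϖ ^ q`, `j = jF M`, `r = D.r`.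
-/

set_option autoImplicit false
set_option linter.unusedSectionVars false

noncomputable section

namespace Fermat.Agent.S36.E.Top

open AlgebraicCurve ModularCurve Fermat.Agent.S24 Fermat.Agent.GAL
  Fermat.Agent.GAL.RED Fermat.Agent.GAL.Gauss Fermat.Agent.DR.Abs Fermat.Agent.DR.Conc
  Fermat.Agent.S36.Abs Fermat.Agent.S36.Norm Fermat.Agent.S36.Val Fermat.Agent.S36.Geo
  Fermat.Agent.S36.E Fermat.Agent.S36.Kron Fermat.Agent.S36.Nodal

/-- **The output of KRON**, with all the choices made. -/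
structure KronData (S : Setup) where
  /-- good reduction at level `M` -/
  hg : GoodRed S.A S.M
  /-- the reduction map on places -/
  r : Place Kbar (FN S.M) → Place S.k (Igusa.E S.k S.M)
  hr : IsRedMap (RS S) r
  /-- a `(q+1)`-th root of `q` -/
  ϖ : Kbar
  hϖ : ϖ ^ (S.q + 1) = (S.q : Kbar)
  /-- the supersingular points -/
  SS : Finset (Place S.k (Igusa.E S.k S.M))
  noncusp : ∀ e ∈ SS, 0 ≤ e.ord (Igusa.jb S.k S.M)
  /-- the coordinate on the disc of `e` -/
  x : Place S.k (Igusa.E S.k S.M) → FN S.M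
  /-- its Frobenius twist -/
  x' : Place S.k (Igusa.E S.k S.M) → FN S.M
  /-- the intermediate twist -/
  u0 : Place S.k (Igusa.E S.k S.M) → FN S.M
  /-- the coefficients of the error term of the Kronecker congruence -/
  rc : Place S.k (Igusa.E S.k S.M) → ℕ → FN S.M
  out : ∀ e ∈ SS, KOut S.A S.M S.q S.hq S.hqM S.hA e (x e) (x' e) (u0 e) (rc e)
  hc : ∀ e ∈ SS, ¬ ((RS S).red (rc e 0) = 0 ∨ 0 < e.ord ((RS S).red (rc e 0)))
  card : 12 * SS.card = (S.q - 1) * dedekindPsi S.M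

/-- **The statement expected from the block KRON.** -/
structure KronMain (S : Setup) (SS : Finset (Place S.k (Igusa.E S.k S.M))) : Prop where
  noncusp : ∀ e ∈ SS, 0 ≤ e.ord (Igusa.jb S.k S.M)
  out : ∀ e ∈ SS, ∃ (x x' u0 : FN S.M) (rc : ℕ → FN S.M),
    KOut S.A S.M S.q S.hq S.hqM S.hA e x x' u0 rc ∧
      ¬ ((RS S).red (rc 0) = 0 ∨ 0 < e.ord ((RS S).red (rc 0)))
  card : 12 * SS.card = (S.q - 1) * dedekindPsi S.M

theorem goodRed_S (S : Setup) (hneat : 4 ∣ S.M ∨ 9 ∣ S.M) : GoodRed S.A S.M :=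
  goodRed_of_neat S.A S.M (natCast_M_ne S) Igusa.cuspUpper Igusa.cuspLower hneat

/-- `KronMain ⟹ KronData`. -/
theorem KronMain.nonempty_kronData {S : Setup} {SS : Finset (Place S.k (Igusa.E S.k S.M))}
    (h : KronMain S SS) (hneat : 4 ∣ S.M ∨ 9 ∣ S.M) : ∃ D : KronData S, D.SS = SS := by
  classical
  have hg := goodRed_S S hneat
  obtain ⟨r, hr⟩ := exists_isRedMap (RS S) (RM_isCartesian S.A S.M _) hg
  obtain ⟨ϖ, hϖ⟩ := IsAlgClosed.exists_pow_nat_eq (S.q : Kbar) (Nat.succ_pos S.q)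
  have hex : ∀ e : Place S.k (Igusa.E S.k S.M), ∃ (x x' u0 : FN S.M) (rc : ℕ → FN S.M), e ∈ SS →
      (KOut S.A S.M S.q S.hq S.hqM S.hA e x x' u0 rc ∧
        ¬ ((RS S).red (rc 0) = 0 ∨ 0 < e.ord ((RS S).red (rc 0)))) := by
    intro e
    by_cases he : e ∈ SS
    · obtain ⟨x, x', u0, rc, h1⟩ := h.out e he
      exact ⟨x, x', u0, rc, fun _ => h1⟩
    · exact ⟨0, 0, 0, 0, fun h' => absurd h' he⟩
  choose x x' u0 rc hx using hex
  exact ⟨⟨hg, r, hr, ϖ, hϖ, SS, h.noncusp, x, x', u0, rc, fun e he => (hx e he).1,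
    fun e he => (hx e he).2, h.card⟩, rfl⟩

namespace KronData

variable {S : Setup} (D : KronData S)

theorem ϖ_ne : D.ϖ ≠ 0 := (varpi_facts S.A S.hq S.hA D.hϖ).1

theorem ϖ_lt : S.A.valuation D.ϖ < 1 := (varpi_facts S.A S.hq S.hA D.hϖ).2

/-- the radius of the discs. -/
def ρ : Kbar := D.ϖ ^ S.q

theorem ρ_ne : D.ρ ≠ 0 := pow_ne_zero _ D.ϖ_ne

theorem disc {e : Place S.k (Igusa.E S.k S.M)} (he : e ∈ D.SS) :
    DiscHyp (RS S) D.r e (D.x e) D.ρ :=
  discHyp_RM S.A S.M _ S.hq S.hA D.hr (D.noncusp e he) (D.out e he).x_int (D.out e he).x_reg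
    (D.out e he).ord_x D.hϖ

theorem SS_nonempty : D.SS.Nonempty := by
  rw [← Finset.card_pos]
  have h1 := D.card
  have h2 : 0 < (S.q - 1) * dedekindPsi S.M :=
    Nat.mul_pos (Nat.sub_pos_of_lt S.hq.one_lt) (Fermat.Agent.GAL.DegreeAlpha.dedekindPsi_pos S.M)
  omega

theorem coordHyp : CoordHyp (RS S) D.r D.SS D.x D.ρ (jF S.M) where
  disc := fun e he => D.disc he
  j_nonconst := by
    rw [RM_red_jF]
    rintro ⟨c, hc⟩
    exact Igusa.transcendental_jb S.k S.M (hc ▸ isAlgebraic_algebraMap c)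
  j_deg := by
    rw [RM_red_jF, Level_degree_poleDiv_jF, Level_degree_poleDiv_jb S.A S.M (natCast_M_ne S)]
  j_reg := fun e he => by
    rw [RM_red_jF]
    exact D.noncusp e he
  ρ_ne := D.ρ_ne
  ρ_small := by
    obtain ⟨e, he⟩ := D.SS_nonempty
    exact (D.disc he).ρ_small

/-- **The coordinate data.** -/
def coord : Nodal.Coord (RS S) where
  r := D.r
  SS := D.SS
  xe := D.x
  ρ := D.ρ
  j := jF S.M
  a := (exists_isCoord D.hr D.coordHyp).choose
  Q := (exists_isCoord D.hr D.coordHyp).choose_spec.choose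
  G₀ := (exists_isCoord D.hr D.coordHyp).choose_spec.choose_spec.choose
  P₀ := (exists_isCoord D.hr D.coordHyp).choose_spec.choose_spec.choose_spec.choose
  redMap := D.hr
  hyp := D.coordHyp
  isCoord := (exists_isCoord D.hr D.coordHyp).choose_spec.choose_spec.choose_spec.choose_spec
  ne := D.SS_nonempty

@[simp] theorem coord_SS : D.coord.SS = D.SS := rfl
@[simp] theorem coord_r : D.coord.r = D.r := rfl
@[simp] theorem coord_xe : D.coord.xe = D.x := rfl
@[simp] theorem coord_ρ : D.coord.ρ = D.ρ := rfl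
@[simp] theorem coord_j : D.coord.j = jF S.M := rfl

theorem coord_card : 12 * D.coord.SS.card = (S.q - 1) * dedekindPsi S.M := D.card

end KronData

end Fermat.Agent.S36.E.Top
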