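import Fermat.Agent.S36.E.Top.Coord
import Fermat.Agent.S36.Nodal.Hor
import Fermat.Agent.S36.StepA.StT

/-!
# S36/E/Top/Hor : the horizontal valuations `Vhor e`, `e ∈ SS`

`D : KronData S`.  `D.Vhor e : ValOver S.A S.F2` is the unique valuation ring of `F2` above the Gauss point of the disc `|x_e| ≤ |ϖ^q|` of the middle copy of `X₀(M)`.
* `Vhor_val`, `Vhor_unique`;
* `aH e`, `bH e`, `cH e` : the coordinates of `H_e`, `isHCurve_H`, `adjoin_H`, `red_yF`;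
* `isFF_hor`, `horInput : Nodal.HorInput D.coord D.Vhor`;
* `scales_hor`, `hhor` (inputs of `StepA.stepA_stT`);
* `smul_mem_Vhor_iff` : inertia stabilises `Vhor e`;  `red_smul_aH`, `red_smul_bH` : its action on the coordinates.
-/

set_option autoImplicit false
set_option linter.unusedSectionVars false
set_option linter.style.haveILetI false

noncomputable section

namespace Fermat.Agent.S36.E.Top

open AlgebraicCurve ModularCurve Fermat.Agent.S24 Fermat.Agent.GAL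
  Fermat.Agent.GAL.RED Fermat.Agent.GAL.Gauss Fermat.Agent.DR.Abs Fermat.Agent.DR.Conc
  Fermat.Agent.S36.Abs Fermat.Agent.S36.Norm Fermat.Agent.S36.Val Fermat.Agent.S36.Geo
  Fermat.Agent.S36.E Fermat.Agent.S36.Kron Fermat.Agent.S36.Nodal Fermat.Agent.S36.StepA
  IntermediateField

section Abs

variable {K E F k Eb : Type*} [Field K] [Field E] [Field F] [Algebra K E] [Algebra E F] [Algebra K F]
  [IsScalarTower K E F] [Field k] [Field Eb] [Algebra k Eb]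
  [Lib.RR.IsFF K E] [IsAlgClosed K] [Lib.RR.IsFF k Eb] [IsAlgClosed k]
variable {R : RedData K E k Eb} {r : Place K E → Place k Eb} {e : Place k Eb} {q : ℕ}
  {ϖ : K} {x : E} {g rr ss : ℕ → E} {c : K} {x₀ x₂ : F} {A : ValuationSubring K}

/-- `ȳ = ā^q + c̄ / ā`. -/
theorem HInput_red_y_A (hRA : R.A = A) [Fact q.Prime]
    [CharP (IsLocalRing.ResidueField ↥A) q] (h : HInput R r e q ϖ x g rr ss c x₀ x₂)
    (hr : IsRedMap R r) (hC : R.IsCartesian) (V : ValOver A F)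
    (hV : IsDiscVal R r e x (ϖ ^ q) (V.O.comap (algebraMap E F))) (hc : c ∈ A) :
    V.red (algebraMap E F ((algebraMap K E (ϖ ^ q))⁻¹ * x)) =
      V.red ((algebraMap K F ϖ)⁻¹ * x₀) ^ q +
        algebraMap (IsLocalRing.ResidueField ↥A) V.Res (IsLocalRing.residue ↥A ⟨c, hc⟩) /
          V.red ((algebraMap K F ϖ)⁻¹ * x₀) := by
  subst hRA
  exact (h.hTower (Fact.out : q.Prime).two_le hr hC hV).red_y_eq V rfl

/-- the coordinates are integral. -/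
theorem HInput_mem_A (hRA : R.A = A) [Fact q.Prime]
    [CharP (IsLocalRing.ResidueField ↥A) q] (h : HInput R r e q ϖ x g rr ss c x₀ x₂)
    (hr : IsRedMap R r) (hC : R.IsCartesian) (V : ValOver A F)
    (hV : IsDiscVal R r e x (ϖ ^ q) (V.O.comap (algebraMap E F))) :
    (algebraMap K F ϖ)⁻¹ * x₀ ∈ V.O ∧ (algebraMap K F ϖ)⁻¹ * x₂ ∈ V.O := by
  subst hRA
  have T := h.hTower (Fact.out : q.Prime).two_le hr hC hV
  exact ⟨T.a_mem V rfl, T.b_mem V rfl⟩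

/-- stability of `H_e` under a semilinear automorphism. -/
theorem HInput_map_mem_iff_A (hRA : R.A = A) [Fact q.Prime]
    [CharP (IsLocalRing.ResidueField ↥A) q] (h : HInput R r e q ϖ x g rr ss c x₀ x₂)
    (hr : IsRedMap R r) (hC : R.IsCartesian) (V : ValOver A F)
    (hV : IsDiscVal R r e x (ϖ ^ q) (V.O.comap (algebraMap E F)))
    (σ : F ≃+* F) (σE : E ≃+* E) (σ₀ : K ≃+* K)
    (hσ : ∀ a, σ (algebraMap K F a) = algebraMap K F (σ₀ a))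
    (hσE : ∀ f, σ (algebraMap E F f) = algebraMap E F (σE f))
    (hA : ∀ a, σ₀ a ∈ A ↔ a ∈ A)
    (hdisc : ∀ f, σE f ∈ discRing R r e ↔ f ∈ discRing R r e)
    (hx : σE x = x) (ζ : K) (hζ : ζ ∈ A) (hζ' : ζ ∉ A.nonunits) (hϖ : σ₀ ϖ = ζ * ϖ) (y : F) :
    σ y ∈ V.O ↔ y ∈ V.O := by
  subst hRA
  have h1 := h.map_eq hr hC V hV σ σE σ₀ hσ hσE hA hdisc hx ζ hζ hζ' hϖ
  have h2 : σ y ∈ (V.map σ σ₀ hσ hA).O ↔ y ∈ V.O := by
    show σ.symm (σ y) ∈ V.O ↔ y ∈ V.O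
    rw [RingEquiv.symm_apply_apply]
  rwa [h1] at h2

end Abs

attribute [local instance] algMid

namespace KronData

variable {S : Setup} (D : KronData S)

theorem exists_hInput' {e : Place S.k (Igusa.E S.k S.M)} (he : e ∈ D.SS) :
    ∃ (rr ss : ℕ → FN S.M) (c : Kbar), HInput (RS S) D.r e S.q D.ϖ (D.x e)
      (gco S.q (D.x e) (D.x' e) (D.rc e)) rr ss c (lo S.M S.q (D.u0 e)) (hi S.M S.q (D.u0 e)) :=
  exists_hInput D.hg D.hr (D.noncusp e he) (D.out e he) (D.hc e he) D.hϖ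

/-- auxiliary coefficients. -/
def rrH (e : ↥D.coord.SS) : ℕ → FN S.M := (D.exists_hInput' e.2).choose

/-- auxiliary coefficients. -/
def ssH (e : ↥D.coord.SS) : ℕ → FN S.M := (D.exists_hInput' e.2).choose_spec.choose

/-- the constant of the equation of `H_e` (a unit of `A`). -/
def cK (e : ↥D.coord.SS) : Kbar := (D.exists_hInput' e.2).choose_spec.choose_spec.choose

theorem hInput (e : ↥D.coord.SS) : HInput (RS S) D.r e.1 S.q D.ϖ (D.x e.1)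
    (gco S.q (D.x e.1) (D.x' e.1) (D.rc e.1)) (D.rrH e) (D.ssH e) (D.cK e)
    (lo S.M S.q (D.u0 e.1)) (hi S.M S.q (D.u0 e.1)) :=
  (D.exists_hInput' e.2).choose_spec.choose_spec.choose_spec

theorem existsUnique_Vhor (e : ↥D.coord.SS) :
    ∃! V : ValOver S.A S.F2, IsDiscVal (RS S) D.r e.1 (D.x e.1) (D.ϖ ^ S.q)
      (V.O.comap (algebraMap (FN S.M) S.F2)) :=
  KOut.existsUnique_hor (hq := S.hq) (hqM := S.hqM) (hA := S.hA) D.hr (D.hInput e)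

/-- **The horizontal valuations.** -/
def Vhor (e : ↥D.coord.SS) : ValOver S.A S.F2 := (D.existsUnique_Vhor e).exists.choose

theorem Vhor_val (e : ↥D.coord.SS) : IsDiscVal (RS S) D.r e.1 (D.x e.1) (D.ϖ ^ S.q)
    ((D.Vhor e).O.comap (algebraMap (FN S.M) S.F2)) := (D.existsUnique_Vhor e).exists.choose_spec

theorem Vhor_unique (e : ↥D.coord.SS) (V : ValOver S.A S.F2)
    (hV : IsDiscVal (RS S) D.r e.1 (D.x e.1) (D.ϖ ^ S.q) (V.O.comap (algebraMap (FN S.M) S.F2))) :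
    V = D.Vhor e := (D.existsUnique_Vhor e).unique hV (D.Vhor_val e)

/-- `x₀ / ϖ`. -/
def aF (e : ↥D.coord.SS) : S.F2 := (algebraMap Kbar S.F2 D.ϖ)⁻¹ * lo S.M S.q (D.u0 e.1)

/-- `x₂ / ϖ`. -/
def bF (e : ↥D.coord.SS) : S.F2 := (algebraMap Kbar S.F2 D.ϖ)⁻¹ * hi S.M S.q (D.u0 e.1)

/-- the first coordinate of `H_e`. -/
def aH (e : ↥D.coord.SS) : (D.Vhor e).Res := (D.Vhor e).red (D.aF e)

/-- the second coordinate of `H_e`. -/
def bH (e : ↥D.coord.SS) : (D.Vhor e).Res := (D.Vhor e).red (D.bF e)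

theorem cK_mem (e : ↥D.coord.SS) : D.cK e ∈ S.A :=
  (KOut.isHCurve_hor (hq := S.hq) (hqM := S.hqM) (hA := S.hA) D.hr (D.hInput e) (D.Vhor e) (D.Vhor_val e)).choose

/-- the constant of the equation of `H_e`. -/
def cH (e : ↥D.coord.SS) : S.k := IsLocalRing.residue ↥S.A ⟨D.cK e, D.cK_mem e⟩

theorem isHCurve_H (e : ↥D.coord.SS) : IsHCurve S.k S.q (D.cH e) (D.aH e) (D.bH e) :=
  (KOut.isHCurve_hor (hq := S.hq) (hqM := S.hqM) (hA := S.hA) D.hr (D.hInput e) (D.Vhor e) (D.Vhor_val e)).choose_spec.1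

theorem adjoin_H (e : ↥D.coord.SS) : S.k⟮D.aH e, D.bH e⟯ = ⊤ :=
  (KOut.isHCurve_hor (hq := S.hq) (hqM := S.hqM) (hA := S.hA) D.hr (D.hInput e) (D.Vhor e) (D.Vhor_val e)).choose_spec.2

theorem aF_mem (e : ↥D.coord.SS) : D.aF e ∈ (D.Vhor e).O :=
  (HInput_mem_A (RM_A S.A S.M _) (D.hInput e) D.hr (RM_isCartesian S.A S.M _) (D.Vhor e)
    (D.Vhor_val e)).1

theorem bF_mem (e : ↥D.coord.SS) : D.bF e ∈ (D.Vhor e).O :=
  (HInput_mem_A (RM_A S.A S.M _) (D.hInput e) D.hr (RM_isCartesian S.A S.M _) (D.Vhor e)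
    (D.Vhor_val e)).2

/-- `ȳ_e = ā^q + c̄ / ā`. -/
theorem red_yF (e : ↥D.coord.SS) : (D.Vhor e).red (yF D.coord e) =
    D.aH e ^ S.q + algebraMap S.k (D.Vhor e).Res (D.cH e) / D.aH e :=
  HInput_red_y_A (RM_A S.A S.M _) (D.hInput e) D.hr (RM_isCartesian S.A S.M _) (D.Vhor e)
    (D.Vhor_val e) (D.cK_mem e)

/-- the residue field of `H_e` is a function field. -/
theorem isFF_hor (e : ↥D.coord.SS) : Lib.RR.IsFF S.k (D.Vhor e).Res :=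
  (D.isHCurve_H e).isFF (D.adjoin_H e)

theorem scales_hor (e : ↥D.coord.SS) (w : S.F2) (hw : w ≠ 0) :
    ∃ a : Kbar, a ≠ 0 ∧ (D.Vhor e).redData.red (a • w) ≠ 0 :=
  KOut.exists_scale_hor (hq := S.hq) (hqM := S.hqM) (hA := S.hA) D.hr (D.hInput e) (D.Vhor e) (D.Vhor_val e) w hw

/-- **helper20's input on the horizontal components.** -/
theorem horInput : HorInput D.coord D.Vhor where
  scales := D.scales_hor
  val := D.Vhor_val
  curve := fun e => ⟨D.cH e, D.aH e, D.bH e, D.isHCurve_H e, D.adjoin_H e, D.red_yF e⟩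

/-- **`hhor`.** -/
theorem hhor (e : ↥D.coord.SS) : ∃ t : (D.Vhor e).Res, Transcendental S.k t ∧
    ∃ (_ : FiniteDimensional S.k⟮t⟯ (D.Vhor e).Res) (_ : IsGalois S.k⟮t⟯ (D.Vhor e).Res),
      Module.finrank S.k⟮t⟯ (D.Vhor e).Res = S.q + 1 ∧
      ∀ γ : (D.Vhor e).Res ≃ₐ[S.k⟮t⟯] (D.Vhor e).Res, ∃ τ ∈ S.A.inertiaSubgroupIn ℚ,
        ∀ y ∈ (D.Vhor e).redData.O,
          (D.Vhor e).redData.red (E.gal (S.M * S.q * S.q) τ • y) = γ ((D.Vhor e).redData.red y) :=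
  KOut.hhor D.hg D.hr (D.out e.1 e.2) (D.hInput e) (D.Vhor e) (D.Vhor_val e)

/-! ### the action of inertia -/

/-- `τ ϖ = ζ ϖ` with `ζ^(q+1) = 1`. -/
theorem exists_zeta (τ : Kbar ≃ₐ[ℚ] Kbar) : ∃ ζ : Kbar, ζ ^ (S.q + 1) = 1 ∧ τ D.ϖ = ζ * D.ϖ := by
  refine ⟨τ D.ϖ / D.ϖ, ?_, (div_mul_cancel₀ _ D.ϖ_ne).symm⟩
  rw [div_pow, ← map_pow, D.hϖ, map_natCast]
  exact div_self (Nat.cast_ne_zero.2 S.hq.ne_zero)

/-- every `(q+1)`-th root of unity is realised by inertia. -/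
theorem exists_inertia_zeta {ζ : Kbar} (hζ : ζ ^ (S.q + 1) = 1) :
    ∃ τ ∈ S.A.inertiaSubgroupIn ℚ, τ D.ϖ = ζ * D.ϖ :=
  exists_inertia_map_root S.A S.hq S.hA (Nat.succ_pos S.q) D.hϖ
    (by rw [mul_pow, hζ, one_mul, D.hϖ])

theorem zeta_unit {n : ℕ} (hn : n ≠ 0) {ζ : Kbar} (hζ : ζ ^ n = 1) :
    ζ ∈ S.A ∧ ζ ∉ S.A.nonunits := by
  have h1 : S.A.valuation ζ = 1 := by
    have h2 : S.A.valuation ζ ^ n = 1 := by rw [← map_pow, hζ, map_one]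
    exact (pow_eq_one_iff_of_nonneg zero_le hn).1 h2
  exact ⟨(S.A.valuation_le_one_iff ζ).1 h1.le, fun h => by
    rw [S.A.mem_nonunits_iff, h1] at h
    exact lt_irrefl _ h⟩

/-- **inertia stabilises the `H_e`.** -/
theorem smul_mem_Vhor_iff {τ : Kbar ≃ₐ[ℚ] Kbar} (hτ : τ ∈ S.A.inertiaSubgroupIn ℚ)
    (e : ↥D.coord.SS) (y : S.F2) :
    E.gal (S.M * S.q * S.q) τ • y ∈ (D.Vhor e).O ↔ y ∈ (D.Vhor e).O := by
  obtain ⟨ζ, hζ, hτϖ⟩ := D.exists_zeta τ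
  obtain ⟨h1, h2⟩ := zeta_unit (S := S) (Nat.succ_ne_zero S.q) hζ
  exact HInput_map_mem_iff_A (RM_A S.A S.M _) (D.hInput e) D.hr (RM_isCartesian S.A S.M _)
    (D.Vhor e) (D.Vhor_val e) (SemilinearAut.toRingAut (E.gal (S.M * S.q * S.q) τ))
    (SemilinearAut.toRingAut (E.gal S.M τ)) τ.toRingEquiv
    (fun a => SemilinearAut.commutes (E.gal (S.M * S.q * S.q) τ) a)
    (fun f => gal_mid τ f)
    (fun a => Fermat.Agent.S36R.K0L.inertia_map_mem_iff S.A S.hq S.hA hτ a)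
    (fun f => gal_mem_discRing_iff S.A S.M _ D.hg D.hr hτ f)
    (gal_of_mem_range_bc0 S.A (D.out e.1 e.2).x_fix τ hτ) ζ h1 h2 hτϖ y

/-- the same for helper67's `exists_isSymm_st`. -/
theorem Sgal_smul_mem_Vhor_iff (σ : S.A.decompositionSubgroup ℚ) (hσ : σ ∈ S.A.inertiaSubgroup ℚ)
    (e : ↥D.coord.SS) (y : S.F2) : Sgal S σ • y ∈ (D.Vhor e).O ↔ y ∈ (D.Vhor e).O :=
  D.smul_mem_Vhor_iff ⟨σ, hσ, rfl⟩ e y

theorem gal_smul_algebraMap (N : ℕ) (τ : Kbar ≃ₐ[ℚ] Kbar) (a : Kbar) :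
    E.gal N τ • algebraMap Kbar (FN N) a = algebraMap Kbar (FN N) (τ a) :=
  SemilinearAut.commutes (E.gal N τ) a

theorem gal_smul_mul (N : ℕ) (τ : Kbar ≃ₐ[ℚ] Kbar) (f g : FN N) :
    E.gal N τ • (f * g) = (E.gal N τ • f) * (E.gal N τ • g) :=
  map_mul (SemilinearAut.toRingAut (E.gal N τ)) f g

theorem gal_smul_inv (N : ℕ) (τ : Kbar ≃ₐ[ℚ] Kbar) (f : FN N) :
    E.gal N τ • f⁻¹ = (E.gal N τ • f)⁻¹ :=
  map_inv₀ (SemilinearAut.toRingAut (E.gal N τ)) f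

/-- the action of inertia on `x₀ / ϖ`. -/
theorem gal_smul_aF {τ : Kbar ≃ₐ[ℚ] Kbar} (hτ : τ ∈ S.A.inertiaSubgroupIn ℚ) {ζ : Kbar}
    (hζ : τ D.ϖ = ζ * D.ϖ) (e : ↥D.coord.SS) :
    E.gal (S.M * S.q * S.q) τ • D.aF e = algebraMap Kbar S.F2 ζ⁻¹ * D.aF e := by
  unfold aF
  rw [gal_smul_mul, gal_smul_inv, gal_smul_algebraMap, gal_lo,
    gal_of_mem_range_bc0 S.A (D.out e.1 e.2).u0_fix τ hτ, hζ, map_mul, mul_inv, map_inv₀, mul_assoc]

/-- the action of inertia on `x₂ / ϖ`. -/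
theorem gal_smul_bF {τ : Kbar ≃ₐ[ℚ] Kbar} (hτ : τ ∈ S.A.inertiaSubgroupIn ℚ) {ζ : Kbar}
    (hζ : τ D.ϖ = ζ * D.ϖ) (e : ↥D.coord.SS) :
    E.gal (S.M * S.q * S.q) τ • D.bF e = algebraMap Kbar S.F2 ζ⁻¹ * D.bF e := by
  unfold bF
  rw [gal_smul_mul, gal_smul_inv, gal_smul_algebraMap, gal_hi,
    gal_of_mem_range_bc0 S.A (D.out e.1 e.2).u0_fix τ hτ, hζ, map_mul, mul_inv, map_inv₀, mul_assoc]

theorem red_gal_aF {τ : Kbar ≃ₐ[ℚ] Kbar} (hτ : τ ∈ S.A.inertiaSubgroupIn ℚ) {ζ : Kbar}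
    (hζ1 : ζ ^ (S.q + 1) = 1) (hζ : τ D.ϖ = ζ * D.ϖ) (e : ↥D.coord.SS) :
    (D.Vhor e).redData.red (E.gal (S.M * S.q * S.q) τ • D.aF e) =
      algebraMap S.k (D.Vhor e).Res ((D.Vhor e).redData.redA ζ⁻¹) * D.aH e := by
  have h1 : ζ⁻¹ ∈ (D.Vhor e).redData.A :=
    (zeta_unit (S := S) (Nat.succ_ne_zero S.q) (by rw [inv_pow, hζ1, inv_one])).1
  rw [D.gal_smul_aF hτ hζ, RedData.red_mul _ ((D.Vhor e).redData.algebraMap_mem _ h1) (D.aF_mem e),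
    RedData.red_algebraMap _ h1]
  rfl

theorem red_gal_bF {τ : Kbar ≃ₐ[ℚ] Kbar} (hτ : τ ∈ S.A.inertiaSubgroupIn ℚ) {ζ : Kbar}
    (hζ1 : ζ ^ (S.q + 1) = 1) (hζ : τ D.ϖ = ζ * D.ϖ) (e : ↥D.coord.SS) :
    (D.Vhor e).redData.red (E.gal (S.M * S.q * S.q) τ • D.bF e) =
      algebraMap S.k (D.Vhor e).Res ((D.Vhor e).redData.redA ζ⁻¹) * D.bH e := by
  have h1 : ζ⁻¹ ∈ (D.Vhor e).redData.A :=
    (zeta_unit (S := S) (Nat.succ_ne_zero S.q) (by rw [inv_pow, hζ1, inv_one])).1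
  rw [D.gal_smul_bF hτ hζ, RedData.red_mul _ ((D.Vhor e).redData.algebraMap_mem _ h1) (D.bF_mem e),
    RedData.red_algebraMap _ h1]
  rfl

end KronData

end Fermat.Agent.S36.E.Top
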